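import Mathlib
import Fermat.Agent.S20.CountFinal
import Fermat.Agent.S24.Counting.Lift
import Fermat.Agent.S48.B.B1.Seams
import Fermat.Agent.S48.B.B1.Count1.Index

/-!
# PROJECT D (S48), part B, block B1, brick DegP (1): the index of `±(Γ₁(M) ∩ Γ₀(ℓ))`

For a prime `ℓ` not dividing `M`:
`[SL₂(ℤ) : ±(Γ₁(M) ∩ Γ₀(ℓ))] = [SL₂(ℤ) : ±Γ₁(M)] · (ℓ + 1)`.

`±(Γ₁(M) ∩ Γ₀(ℓ)) = ±Γ₁(M) ∩ Γ₀(ℓ)`, and `Γ₁(M)` acts transitively on `SL₂(ℤ) ⧸ Γ₀(ℓ)` (Chinese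
remainder theorem on the first column), so the relative index is `[SL₂(ℤ) : Γ₀(ℓ)] = ψ(ℓ) = ℓ + 1`.
-/

set_option autoImplicit false

noncomputable section

namespace Fermat.Agent.S48.B.B1.Deg1p.Index

open CongruenceSubgroup Matrix.SpecialLinearGroup MulAction
open Fermat.Agent.S48.B.B1.Seams
open scoped MatrixGroups

variable (M ℓ : ℕ)

/-- `Γ₁(M) ∩ Γ₀(ℓ)` -/
def HM : Subgroup SL(2, ℤ) := Gamma1 M ⊓ Gamma0 ℓ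

/-- `±(Γ₁(M) ∩ Γ₀(ℓ))` -/
def PH : Subgroup SL(2, ℤ) := HM M ℓ ⊔ Subgroup.zpowers (-1 : SL(2, ℤ))

theorem mem_HM {g : SL(2, ℤ)} : g ∈ HM M ℓ ↔ g ∈ Gamma1 M ∧ g ∈ Gamma0 ℓ := Subgroup.mem_inf

theorem HM_le_PH : HM M ℓ ≤ PH M ℓ := le_sup_left

theorem neg_one_mem_PH : (-1 : SL(2, ℤ)) ∈ PH M ℓ :=
  (le_sup_right : Subgroup.zpowers (-1 : SL(2, ℤ)) ≤ PH M ℓ) (Subgroup.mem_zpowers _)

theorem neg_one_mem_Gamma0 : (-1 : SL(2, ℤ)) ∈ Gamma0 ℓ := by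
  rw [Gamma0_mem]
  simp

theorem neg_mem_Gamma0 {g : SL(2, ℤ)} (hg : g ∈ Gamma0 ℓ) : -g ∈ Gamma0 ℓ := by
  have : -g = g * -1 := by simp
  rw [this]
  exact (Gamma0 ℓ).mul_mem hg (neg_one_mem_Gamma0 ℓ)

/-- `±(Γ₁(M) ∩ Γ₀(ℓ)) = ±Γ₁(M) ∩ Γ₀(ℓ)` -/
theorem PH_eq : PH M ℓ = PG1 M ⊓ Gamma0 ℓ := by
  apply le_antisymm
  · refine sup_le (le_inf (inf_le_left.trans le_sup_left) inf_le_right) ?_
    rw [Subgroup.zpowers_le]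
    exact Subgroup.mem_inf.mpr
      ⟨(le_sup_right : Subgroup.zpowers (-1 : SL(2, ℤ)) ≤ PG1 M) (Subgroup.mem_zpowers _),
        neg_one_mem_Gamma0 ℓ⟩
  · intro g hg
    obtain ⟨h1, h0⟩ := Subgroup.mem_inf.mp hg
    rcases (Fermat.Agent.S48.B.B1.Count1.Index.mem_PG1_iff M g).mp h1 with h | h
    · exact HM_le_PH M ℓ (Subgroup.mem_inf.mpr ⟨h, h0⟩)
    · have : g = -g * -1 := by simp
      rw [this]
      exact (PH M ℓ).mul_mem (HM_le_PH M ℓ (Subgroup.mem_inf.mpr ⟨h, neg_mem_Gamma0 ℓ h0⟩))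
        (neg_one_mem_PH M ℓ)

/-- the elements of `±(Γ₁(M) ∩ Γ₀(ℓ))` -/
theorem mem_PH_iff {g : SL(2, ℤ)} : g ∈ PH M ℓ ↔ g ∈ HM M ℓ ∨ -g ∈ HM M ℓ := by
  rw [PH_eq, Subgroup.mem_inf, Fermat.Agent.S48.B.B1.Count1.Index.mem_PG1_iff, mem_HM, mem_HM]
  constructor
  · rintro ⟨h | h, h0⟩
    · exact Or.inl ⟨h, h0⟩
    · exact Or.inr ⟨h, neg_mem_Gamma0 ℓ h0⟩
  · rintro (⟨h, h0⟩ | ⟨h, h0⟩)
    · exact ⟨Or.inl h, h0⟩
    · refine ⟨Or.inr h, ?_⟩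
      have := neg_mem_Gamma0 ℓ h0
      rwa [neg_neg] at this

/-! ### `Γ₁(M)` acts transitively on `SL₂(ℤ) ⧸ Γ₀(ℓ)` -/

variable {M ℓ}

/-- Chinese remainder theorem on the first column: every coset of `Γ₀(ℓ)` meets `Γ₁(M)`. -/
theorem exists_mem_Gamma1_inv_mul_mem_Gamma0 [NeZero M] [NeZero ℓ] (hℓM : Nat.Coprime ℓ M)
    (g : SL(2, ℤ)) : ∃ k ∈ Gamma1 M, k⁻¹ * g ∈ Gamma0 ℓ := by
  haveI : NeZero (M * ℓ) := ⟨Nat.mul_ne_zero (NeZero.ne M) (NeZero.ne ℓ)⟩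
  -- Bézout
  have hcop : IsCoprime (M : ℤ) (ℓ : ℤ) := Nat.isCoprime_iff_coprime.mpr hℓM.symm
  obtain ⟨s, t, hst⟩ := hcop
  have hdet : g 0 0 * g 1 1 - g 0 1 * g 1 0 = 1 := by
    have := g.det_coe
    rwa [Matrix.det_fin_two] at this
  -- the column to be lifted
  set a : ℤ := g 0 0 * (s * M) + t * ℓ with ha
  set c : ℤ := g 1 0 * (s * M) with hc
  have h0 : ((M : ℕ) : ZMod (M * ℓ)) * ((ℓ : ℕ) : ZMod (M * ℓ)) = 0 := by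
    have : ((M * ℓ : ℕ) : ZMod (M * ℓ)) = 0 := ZMod.natCast_self _
    push_cast at this
    exact this
  have hst' := congrArg (Int.cast : ℤ → ZMod (M * ℓ)) hst
  have hdet' := congrArg (Int.cast : ℤ → ZMod (M * ℓ)) hdet
  push_cast at hst' hdet'
  have hco : IsCoprime ((a : ℤ) : ZMod (M * ℓ)) ((c : ℤ) : ZMod (M * ℓ)) := by
    refine ⟨((g 1 1 * (s * M) + t * ℓ : ℤ) : ZMod (M * ℓ)),
      ((-(g 0 1) * (s * M) : ℤ) : ZMod (M * ℓ)), ?_⟩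
    rw [ha, hc]
    push_cast
    linear_combination
      ((s : ZMod (M * ℓ)) * ((M : ℕ) : ZMod (M * ℓ))) ^ 2 * hdet' +
      ((s : ZMod (M * ℓ)) * ((M : ℕ) : ZMod (M * ℓ)) +
        (t : ZMod (M * ℓ)) * ((ℓ : ℕ) : ZMod (M * ℓ)) + 1) * hst' +
      (((g 0 0 : ℤ) : ZMod (M * ℓ)) + ((g 1 1 : ℤ) : ZMod (M * ℓ)) - 2) *
        (s : ZMod (M * ℓ)) * (t : ZMod (M * ℓ)) * h0
  obtain ⟨k, hk0, hk1⟩ := Fermat.Agent.S24.Counting.Lift.exists_SL2_col_mod (M * ℓ) _ _ hco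
  -- reduce modulo `M` and modulo `ℓ`
  have hk0M := congrArg (ZMod.castHom (dvd_mul_right M ℓ) (ZMod M)) hk0
  have hk1M := congrArg (ZMod.castHom (dvd_mul_right M ℓ) (ZMod M)) hk1
  have hk0ℓ := congrArg (ZMod.castHom (dvd_mul_left ℓ M) (ZMod ℓ)) hk0
  have hk1ℓ := congrArg (ZMod.castHom (dvd_mul_left ℓ M) (ZMod ℓ)) hk1
  simp only [map_intCast] at hk0M hk1M hk0ℓ hk1ℓ
  have hM0 : ((M : ℕ) : ZMod M) = 0 := ZMod.natCast_self _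
  have hℓ0 : ((ℓ : ℕ) : ZMod ℓ) = 0 := ZMod.natCast_self _
  have hstM := congrArg (Int.cast : ℤ → ZMod M) hst
  have hstℓ := congrArg (Int.cast : ℤ → ZMod ℓ) hst
  push_cast at hstM hstℓ
  have haM : ((a : ℤ) : ZMod M) = 1 := by
    rw [ha]
    push_cast
    linear_combination hstM + (((g 0 0 : ℤ) : ZMod M) - 1) * (s : ZMod M) * hM0
  have hcM : ((c : ℤ) : ZMod M) = 0 := by
    rw [hc]
    push_cast
    linear_combination ((g 1 0 : ℤ) : ZMod M) * (s : ZMod M) * hM0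
  have haℓ : ((a : ℤ) : ZMod ℓ) = ((g 0 0 : ℤ) : ZMod ℓ) := by
    rw [ha]
    push_cast
    linear_combination ((g 0 0 : ℤ) : ZMod ℓ) * hstℓ +
      (1 - ((g 0 0 : ℤ) : ZMod ℓ)) * (t : ZMod ℓ) * hℓ0
  have hcℓ : ((c : ℤ) : ZMod ℓ) = ((g 1 0 : ℤ) : ZMod ℓ) := by
    rw [hc]
    push_cast
    linear_combination ((g 1 0 : ℤ) : ZMod ℓ) * hstℓ -
      ((g 1 0 : ℤ) : ZMod ℓ) * (t : ZMod ℓ) * hℓ0
  have hkdet : k 0 0 * k 1 1 - k 0 1 * k 1 0 = 1 := by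
    have := k.det_coe
    rwa [Matrix.det_fin_two] at this
  have hkdetM := congrArg (Int.cast : ℤ → ZMod M) hkdet
  push_cast at hkdetM
  refine ⟨k, ?_, ?_⟩
  · rw [Gamma1_mem]
    have h00 : ((k 0 0 : ℤ) : ZMod M) = 1 := hk0M.trans haM
    have h10 : ((k 1 0 : ℤ) : ZMod M) = 0 := hk1M.trans hcM
    refine ⟨h00, ?_, h10⟩
    rw [h00, h10] at hkdetM
    linear_combination hkdetM
  · rw [Gamma0_mem]
    have e10 : (k⁻¹ * g) 1 0 = k 0 0 * g 1 0 - k 1 0 * g 0 0 := by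
      rw [Matrix.SpecialLinearGroup.coe_mul, Matrix.SpecialLinearGroup.coe_inv,
        Matrix.adjugate_fin_two, Matrix.mul_apply, Fin.sum_univ_two]
      simp
      ring
    rw [e10]
    push_cast
    rw [hk0ℓ, hk1ℓ, haℓ, hcℓ]
    ring

/-! ### The index -/

variable (M ℓ)

/-- `[±Γ₁(M) : ±Γ₁(M) ∩ Γ₀(ℓ)] = [SL₂(ℤ) : Γ₀(ℓ)]` for `ℓ` prime to `M`. -/
theorem relIndex_Gamma0_PG1 [NeZero M] [NeZero ℓ] (hℓM : Nat.Coprime ℓ M) :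
    (Gamma0 ℓ).relIndex (PG1 M) = (Gamma0 ℓ).index := by
  have hstab : stabilizer (PG1 M) ((1 : SL(2, ℤ)) : SL(2, ℤ) ⧸ Gamma0 ℓ) =
      (Gamma0 ℓ).subgroupOf (PG1 M) := by
    ext k
    rw [mem_stabilizer_iff, Subgroup.mem_subgroupOf]
    change (((k : SL(2, ℤ)) * 1 : SL(2, ℤ)) : SL(2, ℤ) ⧸ Gamma0 ℓ) = ((1 : SL(2, ℤ)) : _) ↔ _
    rw [mul_one, eq_comm, QuotientGroup.eq, inv_one, one_mul]
  have horb : orbit (PG1 M) ((1 : SL(2, ℤ)) : SL(2, ℤ) ⧸ Gamma0 ℓ) = Set.univ := by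
    refine Set.eq_univ_of_forall fun x => ?_
    obtain ⟨g, rfl⟩ := QuotientGroup.mk_surjective x
    obtain ⟨k, hk, hkg⟩ := exists_mem_Gamma1_inv_mul_mem_Gamma0 hℓM g
    refine ⟨⟨k, (le_sup_left : Gamma1 M ≤ PG1 M) hk⟩, ?_⟩
    change (((k : SL(2, ℤ)) * 1 : SL(2, ℤ)) : SL(2, ℤ) ⧸ Gamma0 ℓ) = (g : _)
    rw [mul_one, QuotientGroup.eq]
    exact hkg
  have h := index_stabilizer (PG1 M) ((1 : SL(2, ℤ)) : SL(2, ℤ) ⧸ Gamma0 ℓ)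
  rw [hstab, horb, Set.ncard_univ] at h
  rw [Subgroup.relIndex, h, Subgroup.index_eq_card]

theorem dedekindPsi_prime' {p : ℕ} (hp : p.Prime) : ModularCurve.dedekindPsi p = p + 1 := by
  rw [ModularCurve.dedekindPsi, hp.divisors, Finset.filter_insert, Finset.filter_singleton,
    if_pos squarefree_one, if_pos hp.squarefree,
    Finset.sum_insert (by simpa using hp.one_lt.ne), Finset.sum_singleton,
    Nat.div_one, Nat.div_self hp.pos]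

/-- **`[SL₂(ℤ) : ±(Γ₁(M) ∩ Γ₀(ℓ))] = [SL₂(ℤ) : ±Γ₁(M)] (ℓ + 1)`** -/
theorem card_quotient_PH [NeZero M] (hℓ : ℓ.Prime) (hℓM : ¬ ℓ ∣ M) :
    Nat.card (SL(2, ℤ) ⧸ PH M ℓ) = Nat.card (Q1 M) * (ℓ + 1) := by
  haveI : NeZero ℓ := ⟨hℓ.ne_zero⟩
  have hcop : Nat.Coprime ℓ M := (Nat.Prime.coprime_iff_not_dvd hℓ).mpr hℓM
  rw [← Subgroup.index_eq_card, PH_eq,
    ← Subgroup.relIndex_mul_index (inf_le_left : PG1 M ⊓ Gamma0 ℓ ≤ PG1 M),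
    Subgroup.inf_relIndex_left, relIndex_Gamma0_PG1 M ℓ hcop,
    Fermat.Agent.S20.CountFinal.index_Gamma0, dedekindPsi_prime' hℓ, Subgroup.index_eq_card,
    mul_comm]

theorem finite_quotient_PH [NeZero M] (hℓ : ℓ.Prime) (hℓM : ¬ ℓ ∣ M)
    [Finite (Q1 M)] : Finite (SL(2, ℤ) ⧸ PH M ℓ) := by
  apply Nat.finite_of_card_ne_zero
  rw [card_quotient_PH M ℓ hℓ hℓM]
  exact Nat.mul_ne_zero Nat.card_pos.ne' (Nat.succ_ne_zero ℓ)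

end Fermat.Agent.S48.B.B1.Deg1p.Index
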