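import Mathlib
import Fermat.Agent.S28.Step.OfDefs
import Fermat.Agent.S48.B.ES.NormAlpha1

/-!
# PROJECT D (S48), part B, block B1, brick DegP (2): the lower bound `ℓ + 1 ≤ [E : β F]`

`F = ℚ̄(X₁(M))`, `E = ℚ̄(X₁(M; ℓ))`, `β = beta1` (`V : q ↦ q^ℓ`).  From the seam `HasRhoB`
(the extra embedding `ρ` of `E` over `β F`), the `ℓ + 1` ring homomorphisms `E → ℚ̄((q))`

* `ρ`,
* `x ↦ x(ζ^b q)`, `b < ℓ`,

all restrict to `V` on `β F` and are pairwise distinct (their values at `α J` have orders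
`-ℓ²`, `-1` and leading coefficients `ζ^{-b}`); by Dedekind's independence of characters,
`ℓ + 1 ≤ [E : β F]` as soon as `E` is finite over `β F`.
-/

set_option autoImplicit false
set_option linter.unusedSectionVars false
set_option linter.style.haveILetI false

noncomputable section

namespace Fermat.Agent.S48.B.B1.Deg1p.Lower

open ModularCurve IntermediateField AlgebraicCurve HahnSeries Module
open Fermat.Agent.S28.LaurentRescale Fermat.Agent.S28.StepDeg
open Fermat.Agent.S48.B.Defs.Model Fermat.Agent.S48.B.ES.RhoSeam Fermat.Agent.S48.B.ES.DegreeBeta1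
open Fermat.Agent.S48.B.ES.NormAlpha1

local notation "Kb" => AlgebraicClosure ℚ

/-! ### Independence of characters -/

/-- pairwise distinct ring homomorphisms agreeing on the base field are at most `[F : k0]` -/
theorem card_le_finrank_of_injective {k0 F Ω : Type*} [Field k0] [Field F] [Algebra k0 F]
    [FiniteDimensional k0 F] [Field Ω] {Q : Type*} [Fintype Q] (L : Q → F →+* Ω)
    (hinj : Function.Injective L) (L0 : k0 →+* Ω)
    (hbase : ∀ q y, L q (algebraMap k0 F y) = L0 y) : Fintype.card Q ≤ finrank k0 F := by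
  classical
  letI : Algebra k0 Ω := L0.toAlgebra
  let σ : Q → (F →ₐ[k0] Ω) := fun q => { toRingHom := L q, commutes' := fun y => hbase q y }
  have hσ : Function.Injective σ := by
    intro q q' h
    apply hinj
    ext f
    exact congrArg (fun s : F →ₐ[k0] Ω => s f) h
  have hli := (linearIndependent_toLinearMap k0 F Ω).comp σ hσ
  have h := hli.fintype_card_le_finrank
  rwa [Module.finrank_linearMap_self] at h

variable {M ℓ : ℕ} [NeZero M] [NeZero ℓ]

/-! ### The `ℓ + 1` embeddings over `β F` -/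

/-- all the embeddings of `embB` restrict to `V` on `β F` -/
theorem embB_beta1 (ρ : ↥(F1pBar M ℓ) →+* LaurentSeries Kb)
    (hρβ : ∀ x : ↥(F1Bar M), ρ (beta1 M ℓ Kb x) = qExpand Kb ℓ (x : LaurentSeries Kb))
    {ζ : Kbˣ} (hζℓ : ζ ^ ℓ = 1) (q : Option (Fin ℓ)) (y : ↥(F1Bar M)) :
    embB ρ ζ q (beta1 M ℓ Kb y) = qExpand Kb ℓ (y : LaurentSeries Kb) := by
  cases q with
  | none => rw [embB_none, hρβ]
  | some b =>
    rw [embB_some, coe_beta1, rescaleU_qExpand, ← pow_mul, mul_comm, pow_mul, hζℓ, one_pow,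
      rescaleU_one]

/-- the embeddings of `embB` are pairwise distinct (separated at `α J`) -/
theorem embB_injective (hℓ : ℓ.Prime) (ρ : ↥(F1pBar M ℓ) →+* LaurentSeries Kb)
    (δ : ↥(F1Bar M) → ↥(F1Bar M)) (hδj : δ (jF M) = jF M)
    (hρα : ∀ x : ↥(F1Bar M), ρ (alpha1 M ℓ Kb x) =
      qExpand Kb ℓ (qExpand Kb ℓ ((δ x : ↥(F1Bar M)) : LaurentSeries Kb)))
    {ζ : Kbˣ} (hζ : IsPrimitiveRoot ζ ℓ) : Function.Injective (embB ρ ζ) := by
  have hval_none : embB ρ ζ none (alpha1 M ℓ Kb (jF M)) =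
      qExpand Kb ℓ (qExpand Kb ℓ (jqModC Kb)) := by
    rw [embB_none, hρα, hδj, coe_jF]
  have hval_some : ∀ b : Fin ℓ, embB ρ ζ (some b) (alpha1 M ℓ Kb (jF M)) =
      rescaleU (ζ ^ (b : ℕ)) (jqModC Kb) := by
    intro b
    rw [embB_some, coe_alpha1, coe_jF]
  intro a b hab
  have h1 := congrArg (fun f : ↥(F1pBar M ℓ) →+* LaurentSeries Kb =>
    f (alpha1 M ℓ Kb (jF M))) hab
  beta_reduce at h1
  have hℓ2 : (2 : ℤ) ≤ ℓ := by exact_mod_cast hℓ.two_le
  have hord_some : ∀ b : Fin ℓ, (rescaleU (ζ ^ (b : ℕ)) (jqModC Kb)).order = -1 :=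
    fun b => order_rescaleU_jqModC _
  have hord_none : (qExpand Kb ℓ (qExpand Kb ℓ (jqModC Kb))).order = -((ℓ : ℤ) * (ℓ : ℤ)) := by
    rw [order_qExpand, order_qExpand, order_jqModC]
    ring
  have hne : ∀ b : Fin ℓ, qExpand Kb ℓ (qExpand Kb ℓ (jqModC Kb)) ≠
      rescaleU (ζ ^ (b : ℕ)) (jqModC Kb) := by
    intro b h
    have := congrArg HahnSeries.order h
    rw [hord_none, hord_some] at this
    nlinarith
  cases a with
  | none =>
    cases b with
    | none => rfl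
    | some b =>
      rw [hval_none, hval_some] at h1
      exact absurd h1 (hne b)
  | some a =>
    cases b with
    | none =>
      rw [hval_none, hval_some] at h1
      exact absurd h1.symm (hne a)
    | some b =>
      rw [hval_some, hval_some] at h1
      have h3 : ζ ^ (a : ℕ) = ζ ^ (b : ℕ) :=
        eq_of_rescaleU_eq (by rw [coeff_jqModC_neg_one Kb]; exact one_ne_zero) h1
      have h4 : (a : ℕ) = (b : ℕ) := hζ.pow_inj a.2 b.2 h3
      exact congrArg some (Fin.ext h4)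

/-- **`ℓ + 1 ≤ [E : β F]`**, with the embedding `ρ` and the automorphism `δ` as variables. -/
theorem le_finrankAlong_beta1_of (hℓ : ℓ.Prime) (hfin : FiniteAlong Kb (beta1 M ℓ Kb))
    (ρ : ↥(F1pBar M ℓ) →+* LaurentSeries Kb) (δ : ↥(F1Bar M) → ↥(F1Bar M))
    (hδj : δ (jF M) = jF M)
    (hρβ : ∀ x : ↥(F1Bar M), ρ (beta1 M ℓ Kb x) = qExpand Kb ℓ (x : LaurentSeries Kb))
    (hρα : ∀ x : ↥(F1Bar M), ρ (alpha1 M ℓ Kb x) =
      qExpand Kb ℓ (qExpand Kb ℓ ((δ x : ↥(F1Bar M)) : LaurentSeries Kb))) :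
    ℓ + 1 ≤ finrankAlong Kb (beta1 M ℓ Kb) := by
  classical
  letI := algebraAlong (beta1 M ℓ Kb)
  haveI : Module.Finite ↥(F1Bar M) ↥(F1pBar M ℓ) := hfin
  haveI : FiniteDimensional ↥(F1Bar M) ↥(F1pBar M ℓ) := this
  have hℓK : ((ℓ : ℕ) : Kb) ≠ 0 := Nat.cast_ne_zero.mpr hℓ.ne_zero
  obtain ⟨ζ, hζ⟩ := exists_isPrimitiveRoot_units (k := Kb) (p := ℓ) hℓK
  set L0 : ↥(F1Bar M) →+* LaurentSeries Kb := (qExpand Kb ℓ).comp (F1Bar M).val with hL0
  have hbase : ∀ (q : Option (Fin ℓ)) (y : ↥(F1Bar M)),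
      embB ρ ζ q (algebraMap ↥(F1Bar M) ↥(F1pBar M ℓ) y) = L0 y := by
    intro q y
    exact embB_beta1 ρ hρβ hζ.pow_eq_one q y
  have h := card_le_finrank_of_injective (embB ρ ζ) (embB_injective hℓ ρ δ hδj hρα hζ) L0 hbase
  rw [Fintype.card_option, Fintype.card_fin] at h
  exact h

/-- **`ℓ + 1 ≤ [E : β F]`** from the seam `HasRhoB`, when `E` is finite over `β F`. -/
theorem le_finrankAlong_beta1 (hℓ : ℓ.Prime) (hℓM : ℓ.Coprime M) (hρ : HasRhoB M ℓ hℓM)
    (hfin : FiniteAlong Kb (beta1 M ℓ Kb)) : ℓ + 1 ≤ finrankAlong Kb (beta1 M ℓ Kb) := by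
  obtain ⟨ρ, δ, hδ, hρβ, hρα⟩ := hρ
  exact le_finrankAlong_beta1_of hℓ hfin ρ δ (isDiamondAut_jF hδ) hρβ hρα

end Fermat.Agent.S48.B.B1.Deg1p.Lower
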