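import Mathlib
import Fermat.Agent.S48.B.B1.Seams2
import Fermat.Agent.S48.B.ES.DegreeBridge1
import Fermat.Agent.S48.B.B1.Deg1p.Index
import Fermat.Agent.S48.B.B1.Deg1p.Lower

/-!
# PROJECT D (S48), part B, block B1, brick DegP (3): `[ℚ̄(X₁(M; ℓ)) : ℚ̄(j)] = d₁(M) (ℓ + 1)`

`F = ℚ̄(X₁(M))`, `E = ℚ̄(X₁(M; ℓ)) = F ⊔ V_ℓ F` inside `ℚ̄((q))`, `ℓ` a prime not dividing `M`.

* `DegLe1p M ℓ` : the upper bound `[E : ℚ̄(j)] ≤ [SL₂(ℤ) : ±(Γ₁(M) ∩ Γ₀(ℓ))]` (with finiteness),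
  produced analytically in `Deg1p/Upper.lean`;
* `deg1p_of` : `Deg1 M`, `DegLe1p M ℓ` and the seam `HasRhoB` give `Seams2.Deg1p M ℓ`:
  `[E : ℚ̄(j)] = [E : ℚ̄(j(q^ℓ))]` (prime-level modular equation, main's `S37/ES/DegreeBeta`)
  `= [E : V_ℓ F] · d₁(M)`, and `ℓ + 1 ≤ [E : V_ℓ F]` (`Deg1p/Lower.lean`).

The bridge between the two spellings of the degrees (`finrank ℚ̄⟮j⟯ _` of block B1 and
`relfinrank (kJ ℚ̄) _` of [B-ES]) is helper10's `ES/DegreeBridge1`.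
-/

set_option autoImplicit false
set_option linter.unusedSectionVars false
set_option linter.style.haveILetI false

noncomputable section

namespace Fermat.Agent.S48.B.B1.Deg1p.Main

open ModularCurve IntermediateField AlgebraicCurve Module
open Fermat.Agent.S28.StepDeg Fermat.Agent.S37.ES.DegreeBeta
open Fermat.Agent.S48.B.Defs.Model Fermat.Agent.S48.B.ES.RhoSeam Fermat.Agent.S48.B.ES.DegreeBeta1
open Fermat.Agent.S48.B.ES.DegreeBridge1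
open Fermat.Agent.S48.B.B1.Seams Fermat.Agent.S48.B.B1.Seams2 Fermat.Agent.S48.B.B1.Deg1p.Index
open scoped MatrixGroups

local notation "Kb" => AlgebraicClosure ℚ

variable (M ℓ : ℕ) [NeZero M] [NeZero ℓ]

/-! ### The seam of the upper bound -/

/-- **[B-degp], upper bound**: `ℚ̄(X₁(M; ℓ))` is finite over `ℚ̄(j)` of degree at most
`[SL₂(ℤ) : ±(Γ₁(M) ∩ Γ₀(ℓ))]` -/
def DegLe1p : Prop :=
  FiniteDimensional Kb⟮jgen1p M ℓ⟯ ↥(F1pBar M ℓ) ∧
    Module.finrank Kb⟮jgen1p M ℓ⟯ ↥(F1pBar M ℓ) ≤ Nat.card (SL(2, ℤ) ⧸ PH M ℓ)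

variable {M ℓ}

/-- the tower through `V_ℓ F` : `[F : ℚ̄(j)] · [E : V_ℓ F] = [E : ℚ̄(j)]` -/
theorem relfinrank_mul_relfinrank_map_F1Bar (hℓ : ℓ.Prime) :
    IntermediateField.relfinrank (kJ Kb) (F1Bar M) *
        IntermediateField.relfinrank ((F1Bar M).map (qExpandAlgHomC Kb ℓ)) (F1pBar M ℓ) =
      IntermediateField.relfinrank (kJ Kb) (F1pBar M ℓ) := by
  haveI : NeZero (ℓ * ℓ) := ⟨Nat.mul_ne_zero hℓ.ne_zero hℓ.ne_zero⟩
  obtain ⟨PL⟩ := nonempty_primeLevel hℓ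
  exact relfinrank_mul_relfinrank_map PL hℓ.two_le (F1Bar M) (F1pBar M ℓ)
    (kJ_le_F1Bar M) (kJ_le_F1pBar M ℓ) (map_F1Bar_le_F1pBar M ℓ)

theorem finrankAlong_beta1_eq_relfinrank :
    finrankAlong Kb (beta1 M ℓ Kb) =
      IntermediateField.relfinrank ((F1Bar M).map (qExpandAlgHomC Kb ℓ)) (F1pBar M ℓ) :=
  finrankAlong_eq_relfinrank (qExpandAlgHomC Kb ℓ) (beta1 M ℓ Kb) (fun x => coe_beta1 M ℓ Kb x)

/-- **[B-degp]** from `Deg1`, the upper bound and the extra embedding over `β F`. -/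
theorem deg1p_of (hdeg : Deg1 M) (hle : ℓ.Prime → ¬ ℓ ∣ M → DegLe1p M ℓ)
    (hρ : ∀ hℓM : ℓ.Coprime M, HasRhoB M ℓ hℓM) : Deg1p M ℓ := by
  intro hℓ hℓM
  have hcop : ℓ.Coprime M := (Nat.Prime.coprime_iff_not_dvd hℓ).mpr hℓM
  obtain ⟨hfin, hub⟩ := hle hℓ hℓM
  rw [card_quotient_PH M ℓ hℓ hℓM] at hub
  have hd : IntermediateField.relfinrank (kJ Kb) (F1Bar M) = Nat.card (Q1 M) :=
    (relfinrank_kJ_F1Bar M).trans hdeg.2
  have hdpos := card_Q1_pos hdeg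
  have htower := relfinrank_mul_relfinrank_map_F1Bar (M := M) hℓ
  rw [hd, relfinrank_kJ_F1pBar] at htower
  have hEpos : 0 < Module.finrank Kb⟮jgen1p M ℓ⟯ ↥(F1pBar M ℓ) := Module.finrank_pos
  -- `E` is finite over `β F`
  have hβpos : 0 < finrankAlong Kb (beta1 M ℓ Kb) := by
    rw [finrankAlong_beta1_eq_relfinrank]
    rcases Nat.eq_zero_or_pos (IntermediateField.relfinrank
      ((F1Bar M).map (qExpandAlgHomC Kb ℓ)) (F1pBar M ℓ)) with h0 | h0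
    · rw [h0, mul_zero] at htower
      omega
    · exact h0
  have hβfin : FiniteAlong Kb (beta1 M ℓ Kb) := by
    letI := algebraAlong (beta1 M ℓ Kb)
    exact Module.finite_of_finrank_pos hβpos
  have hlow := Lower.le_finrankAlong_beta1 hℓ hcop (hρ hcop) hβfin
  rw [finrankAlong_beta1_eq_relfinrank] at hlow
  -- arithmetic
  have h1 : Nat.card (Q1 M) * (ℓ + 1) ≤ Module.finrank Kb⟮jgen1p M ℓ⟯ ↥(F1pBar M ℓ) := by
    rw [← htower]
    exact Nat.mul_le_mul_left _ hlow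
  exact le_antisymm hub h1

end Fermat.Agent.S48.B.B1.Deg1p.Main
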