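import Mathlib
import Fermat.Agent.S24.LinDisjoint
import Fermat.Agent.S24.DegreeAlg
import Fermat.Agent.S24.Degree
import Fermat.Agent.S48.B.ES.Descent
import Fermat.Agent.S48.B.B1.Degree1.Upper
import Fermat.Agent.S48.B.B1.RepRelG
import Fermat.Agent.S48.B.B1.Deg1p.Main

/-!
# PROJECT D (S48), part B, block B1, brick DegP (5): the upper bound and the theorem

`E = ℚ̄(X₁(M; ℓ))`.  By `ES/Descent.baseChange_F1p_le` (helper8) every element of `ℂ·F1p M ℓ` is a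
quotient of forms on `Γ₁(M) ⊓ Γ₀(ℓ)`; by `B1/RepRelG` (helper2) it satisfies a relation of degree
`≤ [SL₂(ℤ) : ±(Γ₁(M) ⊓ Γ₀(ℓ))]` over `ℂ[j]`; main's linear disjointness descends the relation to
`ℚ̄`, and main's `DegreeAlg.finrank_le_of_relations`, applied to the generators
`j(q^d), h_a, j(q^{dℓ}), h_a(q^ℓ)` of `E`, bounds the degree:

* `degLe1p : ℓ.Coprime M → RepLe M → DegLe1p M ℓ`;
* **`deg1p : Deg1 M → RepLe M → DiamondAn M → DiamondExists M → Deg1p M ℓ`**.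
-/

set_option autoImplicit false
set_option linter.unusedSectionVars false

noncomputable section

namespace Fermat.Agent.S48.B.B1.Deg1p.Upper

open Polynomial ModularCurve IntermediateField
open Fermat.Agent.S24.DegreeAlg Fermat.Agent.S48.B.Defs.Model Fermat.Agent.S48.B.B1.Seams
open Fermat.Agent.S48.B.B1.Seams2 Fermat.Agent.S48.B.ES.DegreeBeta1
open Fermat.Agent.S48.B.ES.DegreeBridge1 Fermat.Agent.S48.B.ES.AtkinLehner
open Fermat.Agent.S48.B.B1.Degree1.Upper Fermat.Agent.S48.B.B1.Deg1p.Index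
open Fermat.Agent.S48.B.B1.Deg1p.Main Fermat.Agent.S48.B.B1.RepRelG
open scoped MatrixGroups

local notation "Kb" => AlgebraicClosure ℚ

variable (M ℓ : ℕ) [NeZero M] [NeZero ℓ]

/-! ### `E = F ⊔ V_ℓ F` and its generators -/

/-- `ℚ̄(X₁(M; ℓ)) = ℚ̄(X₁(M)) ⊔ V_ℓ ℚ̄(X₁(M))` -/
theorem F1pBar_eq_sup :
    F1pBar M ℓ = F1Bar M ⊔ (F1Bar M).map (qExpandAlgHomC Kb ℓ) := by
  apply le_antisymm
  · change laurentBaseChange Kb (F1p M ℓ) ≤ _
    rw [laurentBaseChange, IntermediateField.adjoin_le_iff]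
    rintro _ ⟨y, hy, rfl⟩
    have hle : (F1p M ℓ).toSubfield ≤
        ((F1Bar M ⊔ (F1Bar M).map (qExpandAlgHomC Kb ℓ)).toSubfield).comap
          (coeffEmb Kb : LaurentSeries ℚ →+* LaurentSeries Kb) := by
      rw [F1p, IntermediateField.sup_toSubfield]
      refine sup_le ?_ ?_
      · intro z hz
        exact (le_sup_left : F1Bar M ≤ _) (coeffEmb_mem_laurentBaseChange Kb hz)
      · rintro _ ⟨z, hz, rfl⟩
        refine (le_sup_right : (F1Bar M).map (qExpandAlgHomC Kb ℓ) ≤ _) ?_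
        refine ⟨coeffEmb Kb z, coeffEmb_mem_laurentBaseChange Kb hz, ?_⟩
        change qExpand Kb ℓ (coeffEmb Kb z) = coeffEmb Kb (qExpand ℚ ℓ z)
        exact (coeffEmb_qExpand Kb ℓ z).symm
    exact hle hy
  · exact sup_le (F1Bar_le_F1pBar M ℓ) (map_F1Bar_le_F1pBar M ℓ)

/-- the generators `j(q^d), h_a, j(q^{dℓ}), h_a(q^ℓ)` of `ℚ̄(X₁(M; ℓ))` as Laurent series -/
def genLp : Idx M ⊕ Idx M → LaurentSeries Kb :=
  Sum.elim (genL M Kb) (fun i => qExpand Kb ℓ (genL M Kb i))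

theorem genLp_mem (i : Idx M ⊕ Idx M) : genLp M ℓ i ∈ F1pBar M ℓ := by
  rcases i with i | i
  · exact F1Bar_le_F1pBar M ℓ (genL_mem M i)
  · exact map_F1Bar_le_F1pBar M ℓ ⟨genL M Kb i, genL_mem M i, rfl⟩

theorem F1pBar_eq_adjoin :
    F1pBar M ℓ = IntermediateField.adjoin Kb (Set.range (genLp M ℓ)) := by
  have h1 : Set.range (genLp M ℓ) =
      Set.range (genL M Kb) ∪ (qExpandAlgHomC Kb ℓ) '' Set.range (genL M Kb) := by
    rw [genLp, Set.Sum.elim_range, ← Set.range_comp]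
    rfl
  rw [F1pBar_eq_sup, h1, IntermediateField.adjoin_union, ← IntermediateField.adjoin_map,
    ← F1Bar_eq_adjoin]

/-- the generators as elements of the function field -/
def genFp (i : Idx M ⊕ Idx M) : ↥(F1pBar M ℓ) := ⟨genLp M ℓ i, genLp_mem M ℓ i⟩

theorem adjoin_range_genFp_eq_top :
    IntermediateField.adjoin Kb (Set.range (genFp M ℓ)) = ⊤ := by
  have h1 : (IntermediateField.adjoin Kb (Set.range (genFp M ℓ))).map (F1pBar M ℓ).val
      = F1pBar M ℓ := by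
    rw [IntermediateField.adjoin_map, ← Set.range_comp]
    exact (F1pBar_eq_adjoin M ℓ).symm
  have h2 : (⊤ : IntermediateField Kb ↥(F1pBar M ℓ)).map (F1pBar M ℓ).val = F1pBar M ℓ := by
    rw [← AlgHom.fieldRange_eq_map, IntermediateField.fieldRange_val]
  exact IntermediateField.map_injective _ (h1.trans h2.symm)

theorem coe_jgen1p' : ((jgen1p M ℓ : ↥(F1pBar M ℓ)) : LaurentSeries Kb) = coeffEmb Kb jq := by
  rw [coe_jgen1p, Fermat.Agent.S18.B.Basic.coeffEmb_jq]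

theorem jgen1p_eq_genFp : jgen1p M ℓ = genFp M ℓ (Sum.inl (Sum.inl ⟨1, one_dvd M⟩)) := by
  apply Subtype.ext
  rw [coe_jgen1p']
  exact (jdiv_one Kb M).symm

theorem jgen1p_mem_adjoin : jgen1p M ℓ ∈ Algebra.adjoin Kb (Set.range (genFp M ℓ)) := by
  rw [jgen1p_eq_genFp]
  exact Algebra.subset_adjoin ⟨_, rfl⟩

theorem transcendental_jgen1p : Transcendental Kb (jgen1p M ℓ) := by
  rw [transcendental_iff]
  intro p hp
  have h := transcendental_iff.mp (transcendental_coeffEmb_jq Kb) p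
  apply h
  have := congrArg (F1pBar M ℓ).val hp
  rw [← Polynomial.aeval_algHom_apply, map_zero] at this
  rw [← coe_jgen1p' M ℓ]
  exact this

/-- evaluation of a two-variable polynomial commutes with the inclusion into `ℚ̄((q))` -/
theorem coe_eval₂_IF (E : IntermediateField Kb (LaurentSeries Kb)) (x r : ↥E)
    (P : Polynomial (Polynomial Kb)) :
    ((Polynomial.eval₂ (Polynomial.aeval x : Polynomial Kb →ₐ[Kb] _).toRingHom r P :
        ↥E) : LaurentSeries Kb)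
      = Polynomial.eval₂ (Polynomial.aeval (x : LaurentSeries Kb) :
          Polynomial Kb →ₐ[Kb] LaurentSeries Kb).toRingHom (r : LaurentSeries Kb) P := by
  have := Polynomial.hom_eval₂ P (Polynomial.aeval x : Polynomial Kb →ₐ[Kb] _).toRingHom
    (E.val : _ →+* LaurentSeries Kb) r
  refine this.trans ?_
  congr 1
  refine RingHom.ext fun s => ?_
  exact (Polynomial.aeval_algHom_apply E.val x s).symm

/-! ### The upper bound -/

open Fermat.Agent.S24.LmapJ Fermat.Agent.S30.Analytic.RepFieldEq Fermat.Agent.S24.Degree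

variable {M ℓ}

/-- `±(Γ₁(M) ⊓ Γ₀(ℓ))` in the two spellings -/
theorem PG_Gml : PG (Gml M ℓ) = PH M ℓ := rfl

/-- every element of `ℚ̄(X₁(M; ℓ))` satisfies a nonzero relation of degree
`≤ [SL₂(ℤ) : ±(Γ₁(M) ⊓ Γ₀(ℓ))]` over `ℚ̄[j]` -/
theorem exists_relation_bar1p (hℓM : ℓ.Coprime M) (h : RepLe M) (r : ↥(F1pBar M ℓ)) :
    ∃ Q : Polynomial (Polynomial Kb), Q ≠ 0 ∧ Q.natDegree ≤ Nat.card (SL(2, ℤ) ⧸ PH M ℓ) ∧
      Polynomial.eval₂
        (Polynomial.aeval (jgen1p M ℓ) : Polynomial Kb →ₐ[Kb] ↥(F1pBar M ℓ)).toRingHom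
        r Q = 0 := by
  obtain ⟨ι⟩ := exists_embedding
  have hmem : coeffMap ι (r : LaurentSeries Kb) ∈ laurentBaseChange ℂ (F1p M ℓ) :=
    coeffMap_mem_laurentBaseChange_hom ι r.2
  have hrep : coeffMap ι (r : LaurentSeries Kb) ∈ Fermat.Agent.S48.B.ES.RepG.repFieldG (Gml M ℓ) :=
    Fermat.Agent.S48.B.ES.Descent.baseChange_F1p_le hℓM h hmem
  obtain ⟨P, hP0, hPd, hP⟩ := exists_relation_of_isRepCG (Gml M ℓ) hrep
  have hj : coeffMap ι (coeffEmb Kb jq) = jC := by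
    rw [coeffMap_coeffEmb_hom, jC]
  have hP' : P.eval₂ ((Polynomial.aeval (coeffMap ι (coeffEmb Kb jq) : LaurentSeries ℂ) :
      Polynomial ℂ →ₐ[ℂ] LaurentSeries ℂ) : Polynomial ℂ →+* LaurentSeries ℂ)
      (coeffMap ι (r : LaurentSeries Kb) : LaurentSeries ℂ) = 0 := by
    rw [hj]
    exact hP
  obtain ⟨Q, hQ0, hQd, hQ⟩ := Fermat.Agent.S24.LinDisjoint.exists_rel_over_base' ι
    (coeffEmb Kb jq) (r : LaurentSeries Kb) P hP0 hP'
  refine ⟨Q, hQ0, hQd.trans hPd, ?_⟩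
  apply Subtype.ext
  rw [coe_eval₂_IF, coe_jgen1p']
  exact hQ

/-- **[B-degp], upper bound.** -/
theorem degLe1p (hℓM : ℓ.Coprime M) (h : RepLe M) : DegLe1p M ℓ :=
  finrank_le_of_relations (genFp M ℓ) (adjoin_range_genFp_eq_top M ℓ) (jgen1p M ℓ)
    (jgen1p_mem_adjoin M ℓ) (transcendental_jgen1p M ℓ) (Nat.card (SL(2, ℤ) ⧸ PH M ℓ))
    (fun r _ => exists_relation_bar1p hℓM h r)

/-! ### The theorem -/

/-- **[B-degp]** `[ℚ̄(X₁(M; ℓ)) : ℚ̄(j)] = [SL₂(ℤ) : ±Γ₁(M)] (ℓ + 1)` for a prime `ℓ ∤ M`, from the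
seams of block B1. -/
theorem deg1p (hdeg : Deg1 M) (hle : RepLe M) (hdia : DiamondAn M) (hex : DiamondExists M) :
    Deg1p M ℓ :=
  deg1p_of hdeg
    (fun hℓ hℓM => degLe1p ((Nat.Prime.coprime_iff_not_dvd hℓ).mpr hℓM) hle)
    (fun hℓM => Fermat.Agent.S48.B.ES.Descent.hasRhoB_of hℓM hle hdia hex)

end Fermat.Agent.S48.B.B1.Deg1p.Upper
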